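import Fermat.Agent.Root.SummaryFourSquares
import Fermat.Agent.ThetaAGM.Mean
import Fermat.Agent.ModularValues.AtI

/-!
# The fourth power of `θ₃` and `E₂` on the imaginary axis

`3 θ₃(t)⁴ = 4 P(4t) - P(t)` with `P(t) = E₂(i t / 2)`, the decay of `P - 1`, and
`P(2) = 3/π`, `P(1) + 4 P(4) = 12/π`.
-/

set_option autoImplicit false

noncomputable section

open Filter Topology
open UpperHalfPlane hiding I
open Complex (I)
open FA.ThetaAGM (thetaThree thetaThree_eq)
open scoped Real MatrixGroups ModularForm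

namespace FA.GaussLegendre

/-- `E₂(i t / 2)`. -/
def axisE (t : ℝ) : ℝ :=
  1 - 24 * ∑' n : ℕ+, (ArithmeticFunction.sigma 1 n : ℝ) * Real.exp (-π * t) ^ (n : ℕ)

/-- The point `i t / 2`. -/
def axisPt (t : ℝ) (ht : 0 < t) : ℍ := ⟨(t / 2 : ℂ) * I, by simpa using ht⟩

@[simp] theorem coe_axisPt {t : ℝ} (ht : 0 < t) : (axisPt t ht : ℂ) = (t / 2 : ℂ) * I := rfl

theorem E2_axisPt {t : ℝ} (ht : 0 < t) : EisensteinSeries.E2 (axisPt t ht) = (axisE t : ℂ) := by
  rw [EisensteinSeries.E2_eq_tsum_cexp, axisE]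
  push_cast
  refine congrArg (fun x => 1 - 24 * x) (tsum_congr fun n => ?_)
  congr 2
  simp only [coe_axisPt]
  congr 1
  linear_combination (π : ℂ) * (t : ℂ) * Complex.I_mul_I

theorem scalePt_two_two {t : ℝ} (ht : 0 < t) :
    FA.Eis.scalePt 2 (FA.Eis.scalePt 2 (axisPt t ht)) = axisPt (4 * t) (by positivity) := by
  ext
  simp
  ring

/-- **Jacobi**: `3 θ₃⁴ = 4 E₂(4τ) - E₂(τ)`. -/
theorem three_thetaThree_pow {t : ℝ} (ht : 0 < t) :
    3 * thetaThree t ^ 4 = 4 * axisE (4 * t) - axisE t := by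
  have hser : (3 : ℂ) • (FA.FourSquares.Q₀.series * FA.FourSquares.Q₀.series) =
      FA.FourSquares.eisSer.map (Int.castRingHom ℂ) := by
    ext n
    rw [PowerSeries.coeff_smul, FA.FourSquares.coeff_theta_sq, PowerSeries.coeff_map,
      ← FA.FourSquares.three_mul_rep4]
    simp
  have h1 := (((FA.FourSquares.Q₀.hasQ_theta).mul one_pos FA.FourSquares.Q₀.hasQ_theta).smul
    (3 : ℂ)) (axisPt t ht)
  rw [hser] at h1
  have h := h1.unique (FA.FourSquares.hasQ_eisFour (axisPt t ht))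
  have hθ : FA.FourSquares.Q₀.theta (axisPt t ht) = (thetaThree t ^ 2 : ℝ) := by
    rw [FA.ThetaAGM.sq_thetaThree ht, Complex.ofReal_tsum, FA.Theta.BQF.theta]
    refine tsum_congr fun v => ?_
    rw [FA.Theta.BQF.val_princ, Complex.ofReal_exp, FA.Theta.ex]
    congr 1
    push_cast
    simp only [coe_axisPt]
    linear_combination
      ((π : ℂ) * t * ((v.1 : ℂ) ^ 2 + (v.2 : ℂ) ^ 2)) * Complex.I_mul_I
  rw [Pi.smul_apply, Pi.mul_apply, hθ, FA.FourSquares.eisFour, Pi.add_apply, Pi.smul_apply,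
    FA.Eis.Efun, FA.Eis.dil] at h
  simp only [Pi.sub_apply, Pi.smul_apply, FA.Eis.dil, smul_eq_mul, scalePt_two_two ht,
    E2_axisPt] at h
  refine Complex.ofReal_injective ?_
  push_cast at h ⊢
  linear_combination h

theorem axisE_two : axisE 2 = 3 / π := by
  refine Complex.ofReal_injective ?_
  rw [← E2_axisPt two_pos, show axisPt 2 two_pos = UpperHalfPlane.I by ext; simp]
  exact FA.ModularValues.E2_I

theorem axisE_one_four : axisE 1 + 4 * axisE 4 = 12 / π := by
  have h := congrFun (EisensteinSeries.E2_slash_action ModularGroup.S) (axisPt 4 four_pos)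
  rw [ModularForm.SL_slash_apply] at h
  have hs : ModularGroup.S • axisPt 4 four_pos = axisPt 1 one_pos := by
    ext
    rw [UpperHalfPlane.modular_S_smul]
    simp [Complex.inv_I]
    ring
  rw [hs] at h
  simp only [Pi.sub_apply, Pi.smul_apply, EisensteinSeries.D2_S, riemannZeta_two, smul_eq_mul,
    E2_axisPt] at h
  have hd : UpperHalfPlane.denom (Matrix.SpecialLinearGroup.toGL
      ((Matrix.SpecialLinearGroup.map (Int.castRingHom ℝ)) ModularGroup.S))
      (axisPt 4 four_pos) = 2 * I := by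
    simp [UpperHalfPlane.denom, ModularGroup.coe_S]
    norm_num
  rw [hd, zpow_neg, zpow_ofNat, mul_pow, Complex.I_sq, coe_axisPt] at h
  refine Complex.ofReal_injective ?_
  have hπ : (π : ℂ) ≠ 0 := Complex.ofReal_ne_zero.mpr Real.pi_ne_zero
  push_cast at h ⊢
  field_simp at h ⊢
  linear_combination (-1 / 4 : ℂ) * h

theorem tendsto_two_pow_mul :
    Tendsto (fun n : ℕ => (2 : ℝ) ^ n * (axisE (2 ^ n) - 1)) atTop (𝓝 0) := by
  set q₀ := Real.exp (-π) with hq₀
  have h0 : 0 < q₀ := Real.exp_pos _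
  have h1 : q₀ < 1 := Real.exp_lt_one_iff.mpr (neg_neg_of_pos Real.pi_pos)
  have hs : Summable fun n : ℕ+ => (ArithmeticFunction.sigma 1 n : ℝ) * q₀ ^ (n : ℕ) := by
    refine Summable.comp_injective (f := fun n : ℕ => (ArithmeticFunction.sigma 1 n : ℝ) * q₀ ^ n)
      ?_ Subtype.val_injective
    refine Summable.of_norm_bounded (summable_norm_pow_mul_geometric_of_norm_lt_one (R := ℝ) 2
      (by rwa [Real.norm_of_nonneg h0.le])) fun n => ?_
    simp only [norm_mul, norm_pow, Real.norm_natCast]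
    gcongr
    exact_mod_cast ArithmeticFunction.sigma_le_pow_succ 1 n
  set K := 24 * (∑' n : ℕ+, (ArithmeticFunction.sigma 1 n : ℝ) * q₀ ^ (n : ℕ)) / q₀
  have hlim : Tendsto (fun x : ℝ => K * (x * Real.exp (-π * x))) atTop (𝓝 0) := by
    have h := ((Real.tendsto_pow_mul_exp_neg_atTop_nhds_zero 1).comp
      (tendsto_id.const_mul_atTop Real.pi_pos)).const_mul (K / π)
    rw [mul_zero] at h
    refine h.congr fun x => ?_
    have := Real.pi_pos
    simp only [Function.comp_apply, id_eq, pow_one, neg_mul]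
    field_simp
  refine squeeze_zero_norm (fun n => ?_)
    (hlim.comp (tendsto_pow_atTop_atTop_of_one_lt one_lt_two))
  set x : ℝ := 2 ^ n with hx
  have hx1 : 1 ≤ x := one_le_pow₀ one_le_two
  set q := Real.exp (-π * x) with hq
  have hqq : q ≤ q₀ := Real.exp_le_exp.mpr (by nlinarith [Real.pi_pos])
  have hq0 : 0 < q := Real.exp_pos _
  have hle : ∀ m : ℕ+, (ArithmeticFunction.sigma 1 m : ℝ) * q ^ (m : ℕ) ≤
      q / q₀ * ((ArithmeticFunction.sigma 1 m : ℝ) * q₀ ^ (m : ℕ)) := fun m => by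
    obtain ⟨k, hk⟩ := Nat.exists_eq_add_of_le' m.pos
    rw [hk, pow_succ, pow_succ, show q / q₀ * ((ArithmeticFunction.sigma 1 (k + 1) : ℝ) *
      (q₀ ^ k * q₀)) = (ArithmeticFunction.sigma 1 (k + 1) : ℝ) * (q₀ ^ k * q) by field_simp]
    gcongr
  have hsum : 0 ≤ ∑' m : ℕ+, (ArithmeticFunction.sigma 1 m : ℝ) * q ^ (m : ℕ) :=
    tsum_nonneg fun m => by positivity
  have hb := ((Summable.of_nonneg_of_le (fun m => by positivity) hle (hs.mul_left _))).tsum_mono
    (hs.mul_left (q / q₀)) hle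
  rw [tsum_mul_left] at hb
  rw [axisE, ← hq, show x * (1 - 24 * (∑' m : ℕ+, (ArithmeticFunction.sigma 1 m : ℝ) *
    q ^ (m : ℕ)) - 1) = -(24 * x * ∑' m : ℕ+, (ArithmeticFunction.sigma 1 m : ℝ) *
    q ^ (m : ℕ)) by ring, norm_neg, Real.norm_of_nonneg (by positivity)]
  simp only [Function.comp_apply, ← hx, ← hq]
  calc _ ≤ 24 * x * (q / q₀ * ∑' m : ℕ+, (ArithmeticFunction.sigma 1 m : ℝ) * q₀ ^ (m : ℕ)) := by
        gcongr
    _ = _ := by simp only [K]; ring

end FA.GaussLegendre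

end
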