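import Fermat.Agent.GaussLegendre.Series

/-!
# The sum of `2 ^ j θ₂(2 ^ j) ^ 4`

`H = θ₂⁴` satisfies `H(t) + 2 H(2t) = 2 (θ₃(t)⁴ - θ₃(2t)⁴)`, so the sum telescopes to
`θ₃(1)⁴ - 2/π`.
-/

set_option autoImplicit false

noncomputable section

open Filter Topology
open FA.ThetaAGM (thetaTwo thetaThree thetaFour)
open scoped Real

namespace FA.GaussLegendre

/-- `2 ^ j (P(2 ^ j) - P(2 ^ (j + 1)))`. -/
def gap (j : ℕ) : ℝ := 2 ^ j * (axisE (2 ^ j) - axisE (2 ^ (j + 1)))

/-- `2 ^ j θ₂(2 ^ j) ^ 4`. -/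
def weight (j : ℕ) : ℝ := 2 ^ j * thetaTwo (2 ^ j) ^ 4

theorem weight_nonneg (j : ℕ) : 0 ≤ weight j :=
  mul_nonneg (by positivity)
    (pow_nonneg (FA.ThetaAGM.thetaTwo_pos (by positivity)).le 4)

theorem weight_add {j : ℕ} : weight j + weight (j + 1) = 2 / 3 * (gap (j + 2) - gap j) := by
  have ht : (0 : ℝ) < 2 ^ j := by positivity
  set t : ℝ := 2 ^ j with hdef
  have e1 : (2 : ℝ) ^ (j + 1) = 2 * t := by rw [pow_succ', hdef]
  have e2 : (2 : ℝ) ^ (j + 2) = 4 * t := by rw [pow_add, hdef]; ring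
  have e3 : (2 : ℝ) ^ (j + 3) = 8 * t := by rw [pow_add, hdef]; ring
  have hq := FA.ThetaAGM.quartic ht
  have hs := FA.ThetaAGM.sq_sub_sq ht
  have ha := FA.ThetaAGM.sq_add_sq ht
  have hh : thetaTwo t ^ 4 + 2 * thetaTwo (2 * t) ^ 4 =
      2 * (thetaThree t ^ 4 - thetaThree (2 * t) ^ 4) := by
    rw [show thetaTwo (2 * t) ^ 4 = ((thetaThree t ^ 2 - thetaFour t ^ 2) / 2) ^ 2 by
        rw [hs]; ring,
      show thetaThree (2 * t) ^ 4 = ((thetaThree t ^ 2 + thetaFour t ^ 2) / 2) ^ 2 by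
        rw [ha]; ring]
    linear_combination hq
  have g1 := three_thetaThree_pow ht
  have g2 := three_thetaThree_pow (t := 2 * t) (by positivity)
  rw [show 4 * (2 * t) = 8 * t by ring] at g2
  rw [weight, weight, gap, gap, ← hdef, e1, e2, show j + 2 + 1 = j + 3 from rfl, e3]
  linear_combination t * hh + (2 * t / 3) * g1 - (2 * t / 3) * g2

theorem two_mul_partial (N : ℕ) :
    2 * ∑ j ∈ Finset.range N, weight j =
      weight 0 - weight N + 2 / 3 * (gap N + gap (N + 1) - gap 0 - gap 1) := by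
  induction N with
  | zero => simp
  | succ N ih =>
    rw [Finset.sum_range_succ, mul_add, ih]
    linear_combination weight_add (j := N)

theorem tendsto_gap : Tendsto gap atTop (𝓝 0) := by
  have h := tendsto_two_pow_mul.sub
    ((tendsto_two_pow_mul.comp (tendsto_add_atTop_nat 1)).const_mul (1 / 2))
  rw [mul_zero, sub_zero] at h
  refine h.congr fun j => ?_
  simp only [Function.comp_apply, gap, pow_succ]
  ring

theorem tendsto_weight : Tendsto weight atTop (𝓝 0) := by
  refine squeeze_zero (g := fun j => 2 / 3 * (gap (j + 2) - gap j)) weight_nonneg (fun j => ?_) ?_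
  · rw [← weight_add]
    linarith [weight_nonneg (j + 1)]
  · simpa using ((tendsto_gap.comp (tendsto_add_atTop_nat 2)).sub tendsto_gap).const_mul (2 / 3)

theorem thetaTwo_one : thetaTwo 1 ^ 4 = thetaThree 1 ^ 4 / 2 ∧
    thetaFour 1 ^ 4 = thetaThree 1 ^ 4 / 2 := by
  have h := FA.ThetaAGM.sq_thetaFour_inv one_pos
  rw [inv_one, one_mul] at h
  have h4 : thetaFour 1 ^ 4 = thetaTwo 1 ^ 4 := by
    linear_combination (thetaFour 1 ^ 2 + thetaTwo 1 ^ 2) * h
  constructor <;> linarith [FA.ThetaAGM.quartic one_pos]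

/-- **The telescoped sum.** -/
theorem hasSum_weight : HasSum weight (thetaThree 1 ^ 4 - 2 / π) := by
  rw [hasSum_iff_tendsto_nat_of_nonneg weight_nonneg]
  have h : Tendsto (fun N => (weight 0 - weight N +
      2 / 3 * (gap N + gap (N + 1) - gap 0 - gap 1)) / 2) atTop
      (𝓝 ((weight 0 - 0 + 2 / 3 * (0 + 0 - gap 0 - gap 1)) / 2)) :=
    ((tendsto_const_nhds.sub tendsto_weight).add ((((tendsto_gap.add
      (tendsto_gap.comp (tendsto_add_atTop_nat 1))).sub tendsto_const_nhds).sub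
      tendsto_const_nhds).const_mul _)).div_const 2
  have hval : (weight 0 - 0 + 2 / 3 * (0 + 0 - gap 0 - gap 1)) / 2 =
      thetaThree 1 ^ 4 - 2 / π := by
    have g := three_thetaThree_pow one_pos
    rw [mul_one] at g
    simp only [weight, gap]
    norm_num
    rw [thetaTwo_one.1, axisE_two]
    have := axisE_one_four
    linear_combination (-1 / 4 : ℝ) * g - (1 / 12 : ℝ) * this
  rw [hval] at h
  exact h.congr fun N => by rw [← two_mul_partial]; ring

end FA.GaussLegendre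

end
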